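import Fermat.Agent.DirichletZeroCount.Basic
import Fermat.Agent.ArgumentMean.Stirling
import Fermat.Agent.DerivZetaZeros.Winding
import Fermat.Agent.LevinsonThird.Edges
import Mathlib.NumberTheory.ZetaValues
import Mathlib.Analysis.Real.Pi.Bounds

/-!
# The argument principle and the edges of the rectangle

The integral of `Λ'/Λ` round `[-1, 2] × [-T, T]` counts the zeros; on `re s = 2` the function
`L (s, χ)` has positive real part, and on `im s = T`, `1/2 ≤ re s ≤ 2` its argument changes by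
`O (log (q (T + 3)))`, all uniformly in the character.
-/

set_option autoImplicit false

noncomputable section

namespace FA.DirichletZeroCount

open Complex Filter Topology Set MeasureTheory Metric
open DirichletCharacter (LFunction completedLFunction LFunction_eq_LSeries)
open FA.ExplicitFormula (boxInt boxInt_congr boxInt_add boxInt_eq_zero)
open FA.RiemannMangoldt (rootProd rootProd_ne_zero hasDerivAt_rootProd logGammaReal
  hasDerivAt_logGammaReal im_logGammaReal)
open FA.LevinsonThird (continuousAt_logDeriv boxInt_sum_poles)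
open scoped Real ComplexConjugate

variable {q : ℕ} [NeZero q] {χ : DirichletCharacter ℂ q}

theorem continuousAt_lLog (hχ : χ ≠ 1) {s : ℂ} (h : completedLFunction χ s ≠ 0) :
    ContinuousAt (lLog χ) s :=
  continuousAt_logDeriv isOpen_univ
    (DirichletCharacter.differentiable_completedLFunction hχ).differentiableOn (mem_univ s) h

/-- **The argument principle.** -/
theorem boxInt_lLog (hp : χ.IsPrimitive) (hχ : χ ≠ 1) {T : ℝ} (hT : 0 ≤ T)
    (hord : ∀ ρ, completedLFunction χ ρ = 0 → |ρ.im| ≠ T) :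
    boxInt (lLog χ) (-1) 2 T = 2 * π * I * lZeroCount χ T := by
  classical
  obtain ⟨K, hK⟩ : ∃ K : Set ℂ, K = Icc (-1 : ℝ) 2 ×ℂ Icc (-T) T := ⟨_, rfl⟩
  have hd := DirichletCharacter.differentiable_completedLFunction hχ
  obtain ⟨Z, h, hh, he, hZK, hne, hcount⟩ := FA.Levinson.exists_compact_factor isOpen_univ
    (hK ▸ isCompact_Icc.reProdIm isCompact_Icc : IsCompact K) (subset_univ _)
    hd.differentiableOn fun z _ => order_completed_ne_top hχ z
  have hh' : Differentiable ℂ h := fun z => hh.differentiableAt univ_mem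
  have hZ0 : ∀ ρ ∈ Z, completedLFunction χ ρ = 0 := fun ρ hρ => by
    rw [he]
    refine mul_eq_zero_of_left ?_ _
    simp only [rootProd, Multiset.prod_eq_zero_iff, Multiset.mem_map]
    exact ⟨ρ, hρ, sub_self ρ⟩
  have hZin : ∀ ρ ∈ Z, -1 < ρ.re ∧ ρ.re < 2 ∧ |ρ.im| < T := fun ρ hρ => by
    obtain ⟨h0, h1⟩ := completed_zero_strip hp hχ (hZ0 ρ hρ)
    have h2 := hZK ρ hρ
    rw [hK, mem_reProdIm] at h2
    exact ⟨by linarith, by linarith, lt_of_le_of_ne (abs_le.2 h2.2) (hord ρ (hZ0 ρ hρ))⟩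
  obtain ⟨hc1, hi1⟩ := boxInt_sum_poles (Φ := fun _ => (1 : ℂ)) (differentiable_const _) hT Z hZin
  have hedge : ∀ s ∈ FA.ExplicitFormula.boxEdges (-1) 2 T,
      s ∈ K ∧ ∀ ρ ∈ Z, s ≠ ρ := fun s hs => by
    refine ⟨?_, fun ρ hρ => ?_⟩
    · obtain ⟨h1, h2, -⟩ := hs
      rw [uIcc_of_le (by norm_num)] at h1
      rw [uIcc_of_le (by linarith)] at h2
      rw [hK, mem_reProdIm]
      exact ⟨h1, h2⟩
    · obtain ⟨a1, a2, a3⟩ := hZin ρ hρ
      exact FA.ExplicitFormula.interior_not_edge a1 a2 a3.ne hT hs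
  have hH : ∀ s ∈ K, DifferentiableAt ℂ (fun z => deriv h z / h z) s := fun s hs =>
    ((hh'.analyticAt s).deriv.differentiableAt).div (hh' s) (hne s hs)
  have heq : boxInt (lLog χ) (-1) 2 T = boxInt (fun s =>
      (Z.map fun w => (1 : ℂ) / (s - w)).sum + deriv h s / h s) (-1) 2 T := by
    refine boxInt_congr fun s hs => ?_
    obtain ⟨hsK, hsne⟩ := hedge s hs
    have hd' : deriv (completedLFunction χ) s =
        rootProd Z s * (Z.map fun ρ => (s - ρ)⁻¹).sum * h s + rootProd Z s * deriv h s := by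
      rw [show completedLFunction χ = fun w => rootProd Z w * h w from funext he]
      exact ((hasDerivAt_rootProd hsne).mul (hh' s).hasDerivAt).deriv
    have n1 := rootProd_ne_zero hsne
    have n2 := hne s hsK
    simp only [one_div]
    rw [lLog, hd', he s]
    field_simp
  have hmemK : ∀ s : ℂ, s.re ∈ Icc (-1 : ℝ) 2 → s.im ∈ Icc (-T) T → s ∈ K := fun s h1 h2 => by
    rw [hK, mem_reProdIm]
    exact ⟨h1, h2⟩
  rw [heq, boxInt_add hc1 fun s hs => (hH s (hedge s hs).1).continuousAt, hi1,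
    boxInt_eq_zero (by norm_num) hT fun s h1 h2 => hH s (hmemK s h1 h2), add_zero]
  congr 1
  rw [Multiset.map_const', Multiset.sum_replicate, nsmul_eq_mul, mul_one, Nat.cast_inj,
    lZeroCount_eq_sum hχ]
  rw [← Multiset.sum_count_eq_card (s := (finite_lZeros hχ T).toFinset) fun ρ hρ => ?_]
  · refine Finset.sum_congr rfl fun ρ hρ => ?_
    rw [Set.Finite.mem_toFinset] at hρ
    obtain ⟨-, h0, h1, h2⟩ := hρ
    rw [← analyticOrderNatAt_completed hχ h0,
      hcount ρ (hmemK ρ ⟨by linarith, by linarith⟩ (abs_le.1 h2))]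
  · rw [Set.Finite.mem_toFinset, mem_lZeros_iff hp hχ]
    exact ⟨hZ0 ρ hρ, (hZin ρ hρ).2.2.le⟩

omit [NeZero q] in
/-- `‖L (s, χ) - 1‖ ≤ ζ (2) - 1` on `re s = 2`, with the sum of the series. -/
theorem norm_lseries_two_sub_one_le (χ : DirichletCharacter ℂ q) {s : ℂ} (hs : s.re = 2) :
    ‖LSeries (fun n => χ n) s - 1‖ ≤ π ^ 2 / 6 - 1 := by
  have hS : LSeriesSummable (fun n => χ n) s :=
    LSeriesSummable_of_bounded_of_one_lt_re (m := 1) (fun n _ => χ.norm_le_one _)
      (by rw [hs]; norm_num)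
  refine (hS.hasSum.sub (hasSum_ite_eq 1 (1 : ℂ))).norm_le_of_bounded
    (hasSum_zeta_two.sub (hasSum_ite_eq 1 (1 : ℝ))) fun n => ?_
  rcases eq_or_ne n 1 with rfl | h1
  · simp
  rw [if_neg h1, if_neg h1, sub_zero, sub_zero]
  rcases eq_or_ne n 0 with rfl | h0
  · simp
  rw [LSeries.norm_term_eq, if_neg h0, hs, Real.rpow_two]
  exact div_le_div_of_nonneg_right (χ.norm_le_one _) (by positivity)

/-- **`L (2 + it, χ)` is near `1`.** -/
theorem lfunction_two_near (χ : DirichletCharacter ℂ q) {s : ℂ} (hs : s.re = 2) :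
    1 / 4 ≤ (LFunction χ s).re ∧ 1 / 4 ≤ ‖LFunction χ s‖ := by
  have h := norm_lseries_two_sub_one_le χ hs
  rw [← LFunction_eq_LSeries χ (by rw [hs]; norm_num)] at h
  have h1 := neg_le_of_abs_le ((abs_re_le_norm _).trans h)
  rw [sub_re, one_re] at h1
  have h2 : π ^ 2 / 6 - 1 ≤ 3 / 4 := by nlinarith [Real.pi_pos, Real.pi_lt_d2]
  have h3 : 1 / 4 ≤ (LFunction χ s).re := by linarith
  exact ⟨h3, h3.trans (re_le_norm _)⟩

/-- The logarithmic derivative on `re s > 0`. -/
theorem lLog_eq_add (hχ : χ ≠ 1) {s : ℂ} (hs : 0 < s.re) (hL : LFunction χ s ≠ 0) :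
    lLog χ s = deriv Gammaℝ (s + gShift χ) / Gammaℝ (s + gShift χ) +
      deriv (LFunction χ) s / LFunction χ s := by
  have hg : 0 < (s + gShift χ).re := by simp; linarith [(gShift_mem χ).1]
  have he : completedLFunction χ =ᶠ[𝓝 s] fun z => Gammaℝ (z + gShift χ) * LFunction χ z := by
    filter_upwards [(isOpen_lt continuous_const continuous_re).mem_nhds hs] with z hz
    exact completed_eq_mul hχ hz
  have hd := ((FA.RiemannMangoldt.differentiableAt_realGamma hg).hasDerivAt.comp_add_const s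
    (gShift χ : ℂ)).mul ((DirichletCharacter.differentiable_LFunction hχ) s).hasDerivAt
  have h0 := gammaShift_ne_zero (χ := χ) hs
  rw [lLog, he.deriv_eq, he.eq_of_nhds]
  rw [show deriv (fun z => Gammaℝ (z + gShift χ) * LFunction χ z) s = _ from hd.deriv]
  field_simp

/-- `Im log Γℝ` is odd under conjugation. -/
theorem im_logGammaReal_conj {s : ℂ} (hs : 0 < s.re) :
    (logGammaReal (conj s)).im = -(logGammaReal s).im := by
  rw [im_logGammaReal, im_logGammaReal, show conj s / 2 = conj (s / 2) by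
      rw [map_div₀, Complex.conj_ofNat],
    FA.RiemannMangoldt.logGam_conj_im (by simpa using hs), conj_im]
  ring

omit [NeZero q] in
theorem gamma_shift_two (χ : DirichletCharacter ℂ q) {T : ℝ} (hT : 2 ≤ T) :
    |2 * (logGammaReal (((2 + gShift χ : ℝ) : ℂ) + T * I)).im -
      (T * Real.log (T / (2 * π)) - T)| ≤ 45 := by
  obtain ⟨a0, a1⟩ := gShift_mem χ
  have h := FA.ArgumentMean.abs_im_logGammaReal_sub_le (σ := 2 + gShift χ) (t := T) (by linarith)
    (by linarith)
  have h1 : 6 * ((2 + gShift χ) / 2 + 1) ^ 2 / T ≤ 20 := by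
    rw [div_le_iff₀ (by linarith)]
    nlinarith
  have h2 : ((2 + gShift χ) / 2 - 1 / 2) * (π / 2) ≤ π / 2 :=
    mul_le_of_le_one_left (by positivity) (by linarith)
  have h3 : 0 ≤ ((2 + gShift χ) / 2 - 1 / 2) * (π / 2) :=
    mul_nonneg (by linarith) (by positivity)
  rw [abs_le] at h ⊢
  constructor <;> linarith [Real.pi_le_four]

/-- **The right edge.** -/
theorem abs_vertical_lLog_le (hχ : χ ≠ 1) {T : ℝ} (hT : 2 ≤ T) :
    |(∫ v in (-T)..T, lLog χ (((2 : ℝ) : ℂ) + v * I)).re -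
      (T * Real.log (T / (2 * π)) - T)| ≤ 55 := by
  obtain ⟨a0, a1⟩ := gShift_mem χ
  obtain ⟨σ, hσ⟩ : ∃ σ, σ = 2 + gShift χ := ⟨_, rfl⟩
  have hre : ∀ v : ℝ, ((((2 : ℝ) : ℂ)) + v * I).re = 2 := fun v => by simp
  have hL : ∀ v : ℝ, LFunction χ (((2 : ℝ) : ℂ) + v * I) ≠ 0 := fun v h0 => by
    have := (lfunction_two_near χ (hre v)).1
    rw [h0, zero_re] at this
    linarith
  have hsum : ∀ v : ℝ, ((2 : ℝ) : ℂ) + v * I + (gShift χ : ℂ) = (σ : ℂ) + v * I := fun v => by
    rw [hσ]; push_cast; ring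
  have hdL := DirichletCharacter.differentiable_LFunction hχ
  have hcc : Continuous fun v : ℝ => lLog χ (((2 : ℝ) : ℂ) + v * I) :=
    continuous_iff_continuousAt.2 fun v => ContinuousAt.comp' (g := lLog χ)
      (continuousAt_lLog hχ (completed_ne_zero_right hχ (by rw [hre]; norm_num)))
      (f := fun u : ℝ => ((2 : ℝ) : ℂ) + u * I) (by fun_prop)
  have hLc : Continuous fun v : ℝ => (deriv (LFunction χ) (((2 : ℝ) : ℂ) + v * I) /
      LFunction χ (((2 : ℝ) : ℂ) + v * I)).re :=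
    Complex.continuous_re.comp (continuous_iff_continuousAt.2 fun v => ContinuousAt.comp'
      (g := fun z => deriv (LFunction χ) z / LFunction χ z)
      (continuousAt_logDeriv isOpen_univ hdL.differentiableOn (mem_univ _) (hL v))
      (f := fun u : ℝ => ((2 : ℝ) : ℂ) + u * I) (by fun_prop))
  have hcr : Continuous fun v : ℝ => (lLog χ (((2 : ℝ) : ℂ) + v * I)).re :=
    Complex.continuous_re.comp hcc
  have hG : ∀ v : ℝ, HasDerivAt (fun u : ℝ => (logGammaReal ((σ : ℂ) + u * I)).im)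
      ((lLog χ (((2 : ℝ) : ℂ) + v * I)).re -
        (deriv (LFunction χ) (((2 : ℝ) : ℂ) + v * I) /
          LFunction χ (((2 : ℝ) : ℂ) + v * I)).re) v := fun v => by
    have h := (hasDerivAt_logGammaReal (s := (σ : ℂ) + v * I) (by simp; linarith)).comp v
      (((hasDerivAt_id' (v : ℂ)).mul_const I).const_add (σ : ℂ)).comp_ofReal
    refine (Complex.imCLM.hasFDerivAt.comp_hasDerivAt v h).congr_deriv ?_
    rw [lLog_eq_add hχ (by rw [hre]; norm_num) (hL v), hsum]
    simp
  have hint := intervalIntegral.integral_eq_sub_of_hasDerivAt (fun v _ => hG v)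
    ((hcr.sub hLc).intervalIntegrable (-T) T)
  rw [intervalIntegral.integral_sub (hcr.intervalIntegrable _ _) (hLc.intervalIntegrable _ _),
    show (σ : ℂ) + ((-T : ℝ) : ℂ) * I = conj ((σ : ℂ) + T * I) by simp,
    im_logGammaReal_conj (by simp; linarith)] at hint
  have harg := FA.LevinsonThird.abs_arg_edge_le isOpen_univ hdL.differentiableOn (σ := 2)
    (a := -T) (b := T) fun v _ => ⟨mem_univ _, lt_of_lt_of_le (by norm_num)
      (lfunction_two_near χ (hre v)).1⟩
  have hst := gamma_shift_two χ hT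
  rw [(FA.LevinsonThird.integral_re_im (hcc.intervalIntegrable _ _)).1]
  rw [← hσ] at hst
  rw [abs_le] at harg hst ⊢
  constructor <;> linarith [Real.pi_le_four]

/-- `log (q (|T| + 3))`. -/
def qLog (q : ℕ) (T : ℝ) : ℝ := Real.log (q * (|T| + 3))

theorem qLog_ge (q : ℕ) [NeZero q] (T : ℝ) :
    1 ≤ qLog q T ∧ Real.log q + 1 ≤ qLog q T := by
  have hq : (1 : ℝ) ≤ q := Nat.one_le_cast.2 NeZero.one_le
  have h3 : 1 ≤ Real.log (|T| + 3) := by
    rw [Real.le_log_iff_exp_le (by positivity)]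
    linarith [Real.exp_one_lt_d9, abs_nonneg T]
  rw [qLog, Real.log_mul (by positivity) (by positivity)]
  exact ⟨by linarith [Real.log_nonneg hq], by linarith⟩

/-- The growth of `L (s, χ)` near the centre. -/
theorem norm_lfunction_disc (hχ : χ ≠ 1) {t : ℝ} (ht : 0 ≤ t) {z : ℂ} (hz : ‖z‖ ≤ 7 / 4) :
    ‖LFunction χ (((2 : ℝ) : ℂ) + t * I + z)‖ ≤ 4 * q * (t + 6) := by
  obtain ⟨s, hs⟩ : ∃ s : ℂ, s = ((2 : ℝ) : ℂ) + t * I + z := ⟨_, rfl⟩
  have h1 := neg_le_of_abs_le ((abs_re_le_norm z).trans hz)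
  have hre : 1 / 4 ≤ s.re := by simp [hs]; linarith
  have hn : ‖s‖ ≤ t + 6 := by
    rw [hs]
    refine (norm_add_le _ _).trans ?_
    have := norm_add_le (((2 : ℝ) : ℂ)) ((t : ℂ) * I)
    rw [Complex.norm_real, norm_mul, Complex.norm_I, Complex.norm_real, Real.norm_of_nonneg ht,
      Real.norm_of_nonneg zero_le_two, mul_one] at this
    linarith
  rw [← hs, FA.Siegel.lfunction_eq hχ (by linarith), norm_mul]
  refine (mul_le_mul hn ((FA.Siegel.norm_tail_le hχ (by linarith)).trans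
    (div_le_div_of_nonneg_left (Nat.cast_nonneg q) (by norm_num) hre)) (norm_nonneg _)
    (by linarith)).trans (le_of_eq ?_)
  ring

theorem log_disc_bound (q : ℕ) [NeZero q] {t : ℝ} (ht : 0 ≤ t) :
    1 ≤ 16 * (q : ℝ) * (t + 6) ∧ Real.log (16 * q * (t + 6)) + 1 ≤ 6 * qLog q t := by
  have hq : (1 : ℝ) ≤ q := Nat.one_le_cast.2 NeZero.one_le
  refine ⟨by nlinarith, ?_⟩
  have h : Real.log (16 * q * (t + 6)) ≤ Real.log (32 * (q * (|t| + 3))) := by
    refine Real.log_le_log (by positivity) ?_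
    rw [abs_of_nonneg ht]
    nlinarith
  rw [Real.log_mul (by norm_num) (mul_pos (by linarith : (0 : ℝ) < q) (by positivity)).ne',
    show Real.log ((q : ℝ) * (|t| + 3)) = qLog q t from rfl,
    show (32 : ℝ) = 2 ^ 5 by norm_num, Real.log_pow] at h
  push_cast at h
  linarith [(qLog_ge q t).1, Real.log_two_lt_d9]

/-- **The part of `L` on a horizontal edge.** -/
theorem exists_horizontal_lfunction : ∃ K, 0 ≤ K ∧ ∀ (q : ℕ) [NeZero q]
    (χ : DirichletCharacter ℂ q), χ ≠ 1 → ∀ t : ℝ, 0 ≤ t →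
      (∀ u ∈ Icc (1 / 2 : ℝ) 2, LFunction χ ((u : ℂ) + t * I) ≠ 0) →
      |(∫ u in (1 / 2 : ℝ)..2, deriv (LFunction χ) ((u : ℂ) + t * I) /
        LFunction χ ((u : ℂ) + t * I)).im| ≤ K * qLog q t := by
  obtain ⟨K, hK, hexp⟩ := FA.RiemannMangoldt.exists_logDeriv_expansion (r₁ := (8 : ℝ) / 5)
    (r := 7 / 4) (r₂ := 3 / 2) (by norm_num) (by norm_num) (by norm_num)
  refine ⟨(2 * π + 2) * (6 * K), by positivity, fun q _ χ hχ t ht hne => ?_⟩
  have hd := DirichletCharacter.differentiable_LFunction hχ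
  obtain ⟨s₀, hs₀⟩ : ∃ s₀ : ℂ, s₀ = ((2 : ℝ) : ℂ) + t * I := ⟨_, rfl⟩
  obtain ⟨f, hf⟩ : ∃ f : ℂ → ℂ, f = fun z => LFunction χ (s₀ + z) := ⟨_, rfl⟩
  have hfd : Differentiable ℂ f := by
    rw [hf]
    exact hd.comp (differentiable_id.const_add s₀)
  have hlow : 1 / 4 ≤ ‖f 0‖ := by
    simp only [hf, add_zero]
    exact (lfunction_two_near χ (by simp [hs₀])).2
  obtain ⟨hB1, hBl⟩ := log_disc_bound q ht
  obtain ⟨Z, hZ, hcard, hord, hlog⟩ := hexp univ f (16 * q * (t + 6)) isOpen_univ (subset_univ _)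
    hfd.differentiableOn (norm_pos_iff.1 (lt_of_lt_of_le (by norm_num) hlow)) hB1 fun z hz => by
      rw [mem_sphere_zero_iff_norm] at hz
      calc ‖f z‖ ≤ 4 * q * (t + 6) := by
            rw [hf, hs₀]
            exact norm_lfunction_disc hχ ht hz.le
        _ = 16 * q * (t + 6) * (1 / 4) := by ring
        _ ≤ _ := mul_le_mul_of_nonneg_left hlow (by linarith)
  obtain ⟨E, hE⟩ : ∃ E, E = 6 * K * qLog q t := ⟨_, rfl⟩
  have hKE : K * (Real.log (16 * q * (t + 6)) + 1) ≤ E :=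
    (mul_le_mul_of_nonneg_left hBl hK).trans (le_of_eq (by rw [hE]; ring))
  obtain ⟨Z', hZ'⟩ : ∃ Z', Z' = Z.map fun ρ => ρ + s₀ := ⟨_, rfl⟩
  have hroot : ∀ ρ ∈ Z', ∀ u ∈ uIcc (1 / 2 : ℝ) 2, (u : ℂ) + t * I ≠ ρ := by
    intro ρ hρ u hu h
    rw [uIcc_of_le (by norm_num)] at hu
    rw [hZ'] at hρ
    obtain ⟨x, hx, rfl⟩ := Multiset.mem_map.1 hρ
    have hx' : 0 < Z.count x := Multiset.count_pos.2 hx
    rw [← hord x (hZ x hx)] at hx'
    have hz : f x = 0 := apply_eq_zero_of_analyticOrderNatAt_ne_zero hx'.ne'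
    refine hne u hu ?_
    rw [h, add_comm]
    simpa [hf] using hz
  obtain ⟨hRi, hRb⟩ := FA.DerivZetaZeros.roots_turn Z' hroot
  have hrem : ∀ u ∈ Icc (1 / 2 : ℝ) 2, ‖deriv (LFunction χ) ((u : ℂ) + t * I) /
      LFunction χ ((u : ℂ) + t * I) - (Z'.map fun ρ => ((u : ℂ) + t * I - ρ)⁻¹).sum‖ ≤ E := by
    intro u hu
    have h1 := hlog ((u : ℂ) + t * I - s₀) (mem_closedBall_zero_iff.2 (by
      rw [hs₀, show (u : ℂ) + t * I - (((2 : ℝ) : ℂ) + t * I) = ((u - 2 : ℝ) : ℂ) by
        push_cast; ring, Complex.norm_real, Real.norm_eq_abs, abs_le]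
      constructor <;> linarith [hu.1, hu.2])) (by simpa [hf] using hne u hu)
    simp only [hf, deriv_comp_const_add, add_sub_cancel] at h1
    refine le_trans (le_of_eq ?_) (h1.trans hKE)
    rw [hZ', Multiset.map_map]
    congr 3
    refine Multiset.map_congr rfl fun ρ _ => ?_
    simp only [Function.comp_apply]
    congr 1
    ring
  have hLc : ContinuousOn (fun u : ℝ => deriv (LFunction χ) ((u : ℂ) + t * I) /
      LFunction χ ((u : ℂ) + t * I)) (uIcc (1 / 2) 2) := fun u hu => by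
    rw [uIcc_of_le (by norm_num)] at hu
    exact (ContinuousAt.comp' (g := fun z => deriv (LFunction χ) z / LFunction χ z)
      (continuousAt_logDeriv isOpen_univ hd.differentiableOn (mem_univ _) (hne u hu))
      (f := fun v : ℝ => (v : ℂ) + t * I) (by fun_prop)).continuousWithinAt
  have hdiff : |((∫ u in (1 / 2 : ℝ)..2, deriv (LFunction χ) ((u : ℂ) + t * I) /
      LFunction χ ((u : ℂ) + t * I)) -
        ∫ u in (1 / 2 : ℝ)..2, (Z'.map fun ρ => ((u : ℂ) + t * I - ρ)⁻¹).sum).im| ≤ 2 * E := by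
    refine (abs_im_le_norm _).trans ?_
    rw [← intervalIntegral.integral_sub hLc.intervalIntegrable hRi]
    refine (intervalIntegral.norm_integral_le_of_norm_le_const (C := E) fun u hu => ?_).trans ?_
    · rw [uIoc_of_le (by norm_num)] at hu
      exact hrem u ⟨hu.1.le, hu.2⟩
    · have hE0 : 0 ≤ E := hE ▸ mul_nonneg (by positivity) (zero_le_one.trans (qLog_ge q t).1)
      norm_num
      linarith
  have h2 := mul_le_mul_of_nonneg_left
    (show (Multiset.card Z' : ℝ) ≤ E by rw [hZ', Multiset.card_map]; exact hcard.trans hKE)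
    (show 0 ≤ 2 * π by positivity)
  rw [show (2 * π + 2) * (6 * K) * qLog q t = 2 * π * E + 2 * E by rw [hE]; ring]
  rw [sub_im] at hdiff
  rw [abs_le] at hRb hdiff ⊢
  constructor <;> linarith

/-- **A horizontal edge.** -/
theorem exists_horizontal_lLog : ∃ K, 0 ≤ K ∧ ∀ (q : ℕ) [NeZero q]
    (χ : DirichletCharacter ℂ q), χ ≠ 1 → ∀ t : ℝ, 2 ≤ t →
      (∀ ρ, completedLFunction χ ρ = 0 → ρ.im ≠ t) →
      |(∫ u in (1 / 2 : ℝ)..2, lLog χ ((u : ℂ) + t * I)).im| ≤ K * qLog q t := by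
  obtain ⟨K, hK, hL⟩ := exists_horizontal_lfunction
  refine ⟨K + 40, by positivity, fun q _ χ hχ t ht hord => ?_⟩
  obtain ⟨a0, a1⟩ := gShift_mem χ
  have hre : ∀ u : ℝ, ((u : ℂ) + t * I).re = u := fun u => by simp
  have hne : ∀ u ∈ Icc (1 / 2 : ℝ) 2, LFunction χ ((u : ℂ) + t * I) ≠ 0 := fun u hu h0 =>
    hord ((u : ℂ) + t * I)
      (by rw [completed_eq_mul hχ (by rw [hre]; linarith [hu.1]), h0, mul_zero]) (by simp)
  have hl := hL q χ hχ t (by linarith) hne
  have hd := DirichletCharacter.differentiable_LFunction hχ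
  have hLc : ContinuousOn (fun u : ℝ => deriv (LFunction χ) ((u : ℂ) + t * I) /
      LFunction χ ((u : ℂ) + t * I)) (uIcc (1 / 2) 2) := fun u hu => by
    rw [uIcc_of_le (by norm_num)] at hu
    exact (ContinuousAt.comp' (g := fun z => deriv (LFunction χ) z / LFunction χ z)
      (continuousAt_logDeriv isOpen_univ hd.differentiableOn (mem_univ _) (hne u hu))
      (f := fun v : ℝ => (v : ℂ) + t * I) (by fun_prop)).continuousWithinAt
  have hc : ContinuousOn (fun u : ℝ => lLog χ ((u : ℂ) + t * I)) (uIcc (1 / 2) 2) := fun u _ =>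
    (ContinuousAt.comp' (g := lLog χ) (continuousAt_lLog hχ fun h => hord _ h (by simp))
      (f := fun v : ℝ => (v : ℂ) + t * I) (by fun_prop)).continuousWithinAt
  have hd' : ∀ u ∈ uIcc (1 / 2 : ℝ) 2,
      HasDerivAt (fun v : ℝ => logGammaReal ((v : ℂ) + t * I + gShift χ))
        (lLog χ ((u : ℂ) + t * I) - deriv (LFunction χ) ((u : ℂ) + t * I) /
          LFunction χ ((u : ℂ) + t * I)) u := fun u hu => by
    rw [uIcc_of_le (by norm_num)] at hu
    have h := (hasDerivAt_logGammaReal (s := (u : ℂ) + t * I + gShift χ)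
      (by simp; linarith [hu.1])).comp u
      (((hasDerivAt_id' (u : ℂ)).add_const ((t : ℂ) * I)).add_const (gShift χ : ℂ)).comp_ofReal
    refine h.congr_deriv ?_
    rw [lLog_eq_add hχ (by rw [hre]; linarith [hu.1]) (hne u hu), mul_one, add_sub_cancel_right]
  have hint := intervalIntegral.integral_eq_sub_of_hasDerivAt hd'
    (hc.sub hLc).intervalIntegrable
  rw [intervalIntegral.integral_sub hc.intervalIntegrable hLc.intervalIntegrable] at hint
  have e : ∀ v : ℝ, (v : ℂ) + t * I + gShift χ = ((v + gShift χ : ℝ) : ℂ) + t * I := fun v => by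
    push_cast; ring
  have hi := congrArg Complex.im hint
  rw [e, e, sub_im, sub_im] at hi
  have s1 := FA.ArgumentMean.abs_im_logGammaReal_sub_le (σ := 2 + gShift χ) (t := t) (by linarith)
    (by linarith)
  have s2 := FA.ArgumentMean.abs_im_logGammaReal_sub_le (σ := 1 / 2 + gShift χ) (t := t)
    (by linarith) (by linarith)
  have h1 : 6 * ((2 + gShift χ) / 2 + 1) ^ 2 / t ≤ 20 := by
    rw [div_le_iff₀ (by linarith)]
    nlinarith
  have h2 : 6 * ((1 / 2 + gShift χ) / 2 + 1) ^ 2 / t ≤ 12 := by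
    rw [div_le_iff₀ (by linarith)]
    nlinarith
  have h3 := (qLog_ge q t).1
  rw [abs_le] at hl s1 s2 ⊢
  constructor <;> linarith [Real.pi_le_four, Real.pi_pos]

end FA.DirichletZeroCount

end
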