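import Fermat.Agent.DirichletZeroCount.Edges

/-!
# The formula of Riemann and von Mangoldt for Dirichlet L-functions

For a primitive character `χ ≠ 1` modulo `q` the number `N (T, χ)` of zeros with `0 < re < 1`,
`|im| ≤ T` is `T/π log (q T / (2 π e)) + O (log (q (T + 3)))` for `T ≥ 2`, uniformly in `q`.
-/

set_option autoImplicit false

noncomputable section

namespace FA.DirichletZeroCount

open Complex Filter Topology Set MeasureTheory
open DirichletCharacter (LFunction completedLFunction)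
open FA.ExplicitFormula (boxInt)
open scoped Real ComplexConjugate

variable {q : ℕ} [NeZero q] {χ : DirichletCharacter ℂ q}

/-- The main term. -/
def lMain (q : ℕ) (T : ℝ) : ℝ := T / π * Real.log (q * T / (2 * π * Real.exp 1))

theorem lMain_eq (q : ℕ) [NeZero q] {T : ℝ} (hT : 0 < T) :
    π * lMain q T = T * Real.log q + (T * Real.log (T / (2 * π)) - T) := by
  have hq : (q : ℝ) ≠ 0 := Nat.cast_ne_zero.2 (NeZero.ne q)
  rw [lMain, show (q : ℝ) * T / (2 * π * Real.exp 1) = q * (T / (2 * π)) / Real.exp 1 by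
      field_simp, Real.log_div (by positivity) (Real.exp_ne_zero 1),
    Real.log_mul hq (by positivity), Real.log_exp]
  field_simp
  ring

/-- The left edge, by the functional equation. -/
theorem vertical_left (hp : χ.IsPrimitive) (hχ : χ ≠ 1) (T : ℝ) :
    (∫ v in (-T)..T, lLog χ (((-1 : ℝ) : ℂ) + v * I)).re =
      -(2 * T * Real.log q) - (∫ v in (-T)..T, lLog χ (((2 : ℝ) : ℂ) + v * I)).re := by
  have h2 : ∀ v : ℝ, completedLFunction χ (((2 : ℝ) : ℂ) + v * I) ≠ 0 := fun v =>
    completed_ne_zero_right hχ (by simp)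
  have hc : Continuous fun v : ℝ => lLog χ (((2 : ℝ) : ℂ) + v * I) :=
    continuous_iff_continuousAt.2 fun v => ContinuousAt.comp' (g := lLog χ)
      (continuousAt_lLog hχ (h2 v)) (f := fun u : ℝ => ((2 : ℝ) : ℂ) + u * I) (by fun_prop)
  have he : ∀ v : ℝ, lLog χ (((-1 : ℝ) : ℂ) + v * I) =
      -(Real.log q : ℂ) - conj (lLog χ (((2 : ℝ) : ℂ) + v * I)) := fun v => by
    rw [show ((-1 : ℝ) : ℂ) + v * I = 1 - conj (((2 : ℝ) : ℂ) + v * I) from
      Complex.ext (by simp; norm_num) (by simp), lLog_reflect hp hχ (by simp) (h2 v)]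
    ring
  simp only [he]
  have hc' : Continuous fun v : ℝ => conj (lLog χ (((2 : ℝ) : ℂ) + v * I)) :=
    continuous_conj.comp hc
  rw [intervalIntegral.integral_sub intervalIntegrable_const (hc'.intervalIntegrable _ _),
    intervalIntegral.intervalIntegral_conj, intervalIntegral.integral_const]
  simp only [sub_re, conj_re, Complex.real_smul, neg_re, mul_re, ofReal_re, ofReal_im, neg_im]
  ring

/-- A horizontal edge is twice its right half. -/
theorem horizontal_double (hp : χ.IsPrimitive) (hχ : χ ≠ 1) {t : ℝ}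
    (hord : ∀ ρ, completedLFunction χ ρ = 0 → ρ.im ≠ t) :
    (∫ u in (-1 : ℝ)..2, lLog χ ((u : ℂ) + t * I)).im =
      2 * (∫ u in (1 / 2 : ℝ)..2, lLog χ ((u : ℂ) + t * I)).im := by
  have hne : ∀ u : ℝ, completedLFunction χ ((u : ℂ) + t * I) ≠ 0 := fun u h => hord _ h (by simp)
  have hc : Continuous fun u : ℝ => lLog χ ((u : ℂ) + t * I) :=
    continuous_iff_continuousAt.2 fun u => ContinuousAt.comp' (g := lLog χ)
      (continuousAt_lLog hχ (hne u)) (f := fun v : ℝ => (v : ℂ) + t * I) (by fun_prop)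
  have hc2 : Continuous fun u : ℝ => conj (lLog χ (((1 - u : ℝ) : ℂ) + t * I)) :=
    continuous_conj.comp (hc.comp (continuous_const.sub continuous_id))
  have he : ∀ u : ℝ, u ∈ uIcc (-1 : ℝ) (1 / 2) →
      lLog χ ((u : ℂ) + t * I) =
        -(Real.log q : ℂ) - conj (lLog χ (((1 - u : ℝ) : ℂ) + t * I)) := fun u hu => by
    rw [uIcc_of_le (by norm_num)] at hu
    rw [show (u : ℂ) + t * I = 1 - conj (((1 - u : ℝ) : ℂ) + t * I) from
      Complex.ext (by simp) (by simp),
      lLog_reflect hp hχ (by simp; linarith [hu.2]) (hne _)]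
    ring
  have hleft : (∫ u in (-1 : ℝ)..(1 / 2), lLog χ ((u : ℂ) + t * I)).im =
      (∫ u in (1 / 2 : ℝ)..2, lLog χ ((u : ℂ) + t * I)).im := by
    rw [intervalIntegral.integral_congr he,
      intervalIntegral.integral_sub intervalIntegrable_const
        (hc2.intervalIntegrable _ _),
      intervalIntegral.intervalIntegral_conj,
      intervalIntegral.integral_comp_sub_left (fun x : ℝ => lLog χ ((x : ℂ) + t * I)) 1,
      intervalIntegral.integral_const]
    norm_num [Complex.log_im]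
  rw [← intervalIntegral.integral_add_adjacent_intervals (b := (1 / 2 : ℝ))
    (hc.intervalIntegrable _ _) (hc.intervalIntegrable _ _), add_im, hleft]
  ring

/-- The count away from the heights of the zeros. -/
theorem exists_count_clean : ∃ C, 0 ≤ C ∧ ∀ (q : ℕ) [NeZero q] (χ : DirichletCharacter ℂ q),
    χ.IsPrimitive → χ ≠ 1 → ∀ T : ℝ, 2 ≤ T →
      (∀ ρ, completedLFunction χ ρ = 0 → |ρ.im| ≠ T) →
      |(lZeroCount χ T : ℝ) - lMain q T| ≤ C * qLog q T := by
  obtain ⟨K, hK, hhor⟩ := exists_horizontal_lLog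
  refine ⟨2 * K + 55, by positivity, fun q _ χ hp hχ T hT hord => ?_⟩
  have hT0 : 0 ≤ T := by linarith
  have hpos : ∀ ρ, completedLFunction χ ρ = 0 → ρ.im ≠ T := fun ρ h e =>
    hord ρ h (by rw [e, abs_of_nonneg hT0])
  have hneg : ∀ ρ, completedLFunction χ ρ = 0 → ρ.im ≠ -T := fun ρ h e =>
    hord ρ h (by rw [e, abs_neg, abs_of_nonneg hT0])
  have hzero : ∀ ρ, completedLFunction χ⁻¹ ρ = 0 → completedLFunction χ (conj ρ) = 0 :=
    fun ρ h => by
    have h0 := (completed_zero_strip (isPrimitive_inv' hp) (inv_ne_one' hχ) h).1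
    have e := completed_conj_inv (inv_ne_one' hχ) h0
    rwa [inv_inv, h, map_zero] at e
  have hinv : ∀ ρ, completedLFunction χ⁻¹ ρ = 0 → ρ.im ≠ T := fun ρ h e =>
    hneg _ (hzero ρ h) (by simp [e])
  have hbox := congrArg Complex.im (boxInt_lLog hp hχ hT0 hord)
  have hlow : (∫ u in (1 / 2 : ℝ)..2, lLog χ ((u : ℂ) + ((-T : ℝ) : ℂ) * I)).im =
      -(∫ u in (1 / 2 : ℝ)..2, lLog χ⁻¹ ((u : ℂ) + T * I)).im := by
    rw [← Complex.conj_im, ← intervalIntegral.intervalIntegral_conj]
    congr 1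
    refine intervalIntegral.integral_congr fun u hu => ?_
    rw [uIcc_of_le (by norm_num)] at hu
    have h := lLog_conj_inv (inv_ne_one' hχ) (s := (u : ℂ) + T * I) (by simp; linarith [hu.1])
    rw [inv_inv] at h
    rw [← h]
    simp
  simp only [boxInt, add_im, sub_im, mul_im, I_re, I_im, zero_mul, one_mul, zero_add,
    vertical_left hp hχ, horizontal_double hp hχ hpos, horizontal_double hp hχ hneg, hlow] at hbox
  simp only [mul_re, re_ofNat, im_ofNat, ofReal_re, ofReal_im, natCast_re, natCast_im, mul_im,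
    I_re, I_im, mul_zero, mul_one, zero_mul, sub_zero, add_zero, zero_add] at hbox
  have hv := abs_vertical_lLog_le hχ hT
  have h1 := hhor q χ hχ T hT hpos
  have h2 := hhor q χ⁻¹ (inv_ne_one' hχ) T hT hinv
  have e := lMain_eq q (show 0 < T by linarith)
  have hl := (qLog_ge q T).1
  have hb : |π * ((lZeroCount χ T : ℝ) - lMain q T)| ≤ (2 * K + 55) * qLog q T := by
    rw [mul_sub, e, add_mul, mul_assoc]
    rw [abs_le] at hv h1 h2 ⊢
    constructor <;> linarith
  rw [abs_mul, abs_of_pos Real.pi_pos] at hb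
  exact (le_mul_of_one_le_left (abs_nonneg _) (by linarith [Real.pi_gt_three])).trans hb

/-- The main term varies slowly. -/
theorem lMain_near (q : ℕ) [NeZero q] {S T : ℝ} (hS : 2 ≤ S) (hST : S ≤ T) (hT : T ≤ S + 1) :
    |lMain q T - lMain q S| ≤ 3 * qLog q S := by
  have hq : (1 : ℝ) ≤ q := Nat.one_le_cast.2 NeZero.one_le
  have hd : ∀ x ∈ Icc S T, HasDerivWithinAt (fun u : ℝ => π * lMain q u)
      (Real.log q + Real.log (x / (2 * π))) (Icc S T) x := fun x hx => by
    have hx0 : 0 < x := by linarith [hx.1]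
    have h1 := (hasDerivAt_id' x).div_const (2 * π)
    have h2 := ((hasDerivAt_id' x).mul_const (Real.log q)).add
      (((hasDerivAt_id' x).mul (h1.log (div_ne_zero hx0.ne' (by positivity)))).sub
        (hasDerivAt_id' x))
    refine ((h2.congr_deriv ?_).congr_of_eventuallyEq ?_).hasDerivWithinAt
    · field_simp
      ring
    · filter_upwards [lt_mem_nhds hx0] with u hu
      exact lMain_eq q hu
  have hb : ∀ x ∈ Icc S T, ‖Real.log q + Real.log (x / (2 * π))‖ ≤ 3 * qLog q S := fun x hx => by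
    have hx0 : 0 < x := by linarith [hx.1]
    obtain ⟨g1, g2⟩ := qLog_ge q S
    have hup : Real.log q + Real.log (x / (2 * π)) ≤ qLog q S := by
      rw [qLog, Real.log_mul (by positivity) (by positivity)]
      refine add_le_add le_rfl (Real.log_le_log (by positivity) ?_)
      rw [abs_of_nonneg (by linarith), div_le_iff₀ (by positivity)]
      nlinarith [Real.pi_gt_three, hx.2]
    have hlo : -3 ≤ Real.log (x / (2 * π)) := by
      rw [Real.log_div hx0.ne' (by positivity)]
      have a := Real.log_nonneg (show 1 ≤ x by linarith [hx.1])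
      have b := (Real.log_le_log (by positivity)
        (show 2 * π ≤ (2 : ℝ) ^ 3 by linarith [Real.pi_le_four]))
      rw [Real.log_pow] at b
      push_cast at b
      nlinarith [Real.log_two_lt_d9]
    rw [Real.norm_eq_abs, abs_le]
    constructor <;> linarith [Real.log_nonneg hq]
  have := (convex_Icc S T).norm_image_sub_le_of_norm_hasDerivWithin_le hd hb
    (left_mem_Icc.2 hST) (right_mem_Icc.2 hST)
  rw [← mul_sub, Real.norm_eq_abs, Real.norm_eq_abs, abs_mul, abs_of_pos Real.pi_pos,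
    abs_of_nonneg (by linarith : 0 ≤ T - S)] at this
  exact (le_mul_of_one_le_left (abs_nonneg _) (by linarith [Real.pi_gt_three])).trans
    (this.trans (mul_le_of_le_one_right (by linarith [(qLog_ge q S).1]) (by linarith)))

theorem qLog_near (q : ℕ) [NeZero q] {S T : ℝ} (hS : 0 ≤ S) (hST : S ≤ T) (hT : T ≤ S + 1) :
    qLog q T ≤ 2 * qLog q S := by
  have hq : (0 : ℝ) < q := Nat.cast_pos.2 (NeZero.pos q)
  have hx : (q : ℝ) * (|T| + 3) ≤ 2 * (q * (|S| + 3)) := by
    rw [abs_of_nonneg hS, abs_of_nonneg (hS.trans hST)]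
    nlinarith
  have h : qLog q T ≤ Real.log (2 * (q * (|S| + 3))) :=
    Real.log_le_log (mul_pos hq (by positivity)) hx
  rw [Real.log_mul two_ne_zero (mul_pos hq (by positivity)).ne', ← qLog] at h
  linarith [(qLog_ge q S).1, Real.log_two_lt_d9]

/-- A height just above `T` without zeros, and the same count. -/
theorem exists_clean_height (hp : χ.IsPrimitive) (hχ : χ ≠ 1) (T : ℝ) :
    ∃ T', T < T' ∧ T' < T + 1 ∧ (∀ ρ, completedLFunction χ ρ = 0 → |ρ.im| ≠ T') ∧
      lZeroCount χ T' = lZeroCount χ T := by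
  obtain ⟨A, hA⟩ : ∃ A : Set ℝ, A = (fun ρ : ℂ => |ρ.im|) '' lZeros χ (T + 1) := ⟨_, rfl⟩
  have hAf : A.Finite := hA ▸ (finite_lZeros hχ _).image _
  have hev : ∀ᶠ x in 𝓝[>] T, ∀ a ∈ A, a ≤ T ∨ x < a := by
    rw [hAf.eventually_all]
    intro a _
    rcases le_or_gt a T with ha | ha
    · exact Eventually.of_forall fun _ => Or.inl ha
    · exact ((eventually_lt_nhds ha).filter_mono nhdsWithin_le_nhds).mono fun _ hx => Or.inr hx
  obtain ⟨T', ⟨hgap, hT'⟩, hgt⟩ := ((hev.and ((eventually_lt_nhds (show T < T + 1 by linarith)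
    ).filter_mono nhdsWithin_le_nhds)).and self_mem_nhdsWithin).exists
  replace hgt : T < T' := hgt
  refine ⟨T', hgt, hT', fun ρ hρ e => ?_, ?_⟩
  · have hm : |ρ.im| ∈ A := hA ▸
      ⟨ρ, (mem_lZeros_iff hp hχ).2 ⟨hρ, by rw [e]; linarith⟩, rfl⟩
    rcases hgap _ hm with h1 | h1 <;> linarith
  · refine le_antisymm ?_ (lZeroCount_mono hχ hgt.le)
    rw [lZeroCount_eq_sum hχ, lZeroCount_eq_sum hχ]
    refine Finset.sum_le_sum_of_subset fun ρ hρ => ?_
    rw [Set.Finite.mem_toFinset] at hρ ⊢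
    obtain ⟨h1, h2, h3, h4⟩ := hρ
    refine ⟨h1, h2, h3, ?_⟩
    by_contra hlt
    have hm : |ρ.im| ∈ A := hA ▸ ⟨ρ, ⟨h1, h2, h3, by linarith⟩, rfl⟩
    rcases hgap _ hm with h6 | h6 <;> linarith

/-- **The formula of Riemann and von Mangoldt for `L (s, χ)`.** -/
theorem exists_lZeroCount : ∃ C, 0 ≤ C ∧ ∀ (q : ℕ) [NeZero q] (χ : DirichletCharacter ℂ q),
    χ.IsPrimitive → χ ≠ 1 → ∀ T : ℝ, 2 ≤ T →
      |(lZeroCount χ T : ℝ) - lMain q T| ≤ C * qLog q T := by
  obtain ⟨C, hC, h⟩ := exists_count_clean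
  refine ⟨2 * C + 3, by positivity, fun q _ χ hp hχ T hT => ?_⟩
  obtain ⟨T', h1, h2, hord, hN⟩ := exists_clean_height hp hχ T
  have h3 := h q χ hp hχ T' (by linarith) hord
  rw [hN] at h3
  have h4 := lMain_near q hT h1.le h2.le
  have h5 := mul_le_mul_of_nonneg_left (qLog_near q (by linarith) h1.le h2.le) hC
  have h6 := abs_sub_le (lZeroCount χ T : ℝ) (lMain q T') (lMain q T)
  linarith

/-- **At most `O (log (q (T + 3)))` zeros in a unit window.** -/
theorem exists_lZeroCount_window : ∃ C, 0 ≤ C ∧ ∀ (q : ℕ) [NeZero q]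
    (χ : DirichletCharacter ℂ q), χ.IsPrimitive → χ ≠ 1 → ∀ T : ℝ, 0 ≤ T →
      (lZeroCount χ (T + 1) : ℝ) - lZeroCount χ T ≤ C * qLog q T := by
  obtain ⟨C, hC, h⟩ := exists_lZeroCount
  refine ⟨6 * C + 20, by positivity, fun q _ χ hp hχ T hT => ?_⟩
  have hl := (qLog_ge q T).1
  rcases le_total 2 T with hT2 | hT2
  · have a := abs_le.1 (h q χ hp hχ T hT2)
    have b := abs_le.1 (h q χ hp hχ (T + 1) (by linarith))
    have c := abs_le.1 (lMain_near q hT2 (show T ≤ T + 1 by linarith) le_rfl)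
    have d := mul_le_mul_of_nonneg_left (qLog_near q hT (show T ≤ T + 1 by linarith) le_rfl) hC
    nlinarith [a.1, b.2, c.2]
  · -- below the range of the formula everything is at most `N (3)`
    have b := abs_le.1 (h q χ hp hχ 3 (by norm_num))
    have m : (lZeroCount χ (T + 1) : ℝ) ≤ lZeroCount χ 3 :=
      Nat.cast_le.2 (lZeroCount_mono hχ (by linarith))
    obtain ⟨g1, g2⟩ := qLog_ge q T
    have hq : (1 : ℝ) ≤ q := Nat.one_le_cast.2 NeZero.one_le
    have d : qLog q 3 ≤ 2 * qLog q T := by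
      have hle : qLog q 3 ≤ Real.log (2 * (q * (|T| + 3))) :=
        Real.log_le_log (by rw [abs_of_nonneg (by norm_num : (0 : ℝ) ≤ 3)]; linarith)
          (by rw [abs_of_nonneg hT, abs_of_nonneg (by norm_num : (0 : ℝ) ≤ 3)]; nlinarith)
      rw [Real.log_mul two_ne_zero (mul_pos (by linarith) (by positivity)).ne', ← qLog] at hle
      linarith [Real.log_two_lt_d9]
    have e := lMain_eq q (show (0 : ℝ) < 3 by norm_num)
    have e1 : Real.log (3 / (2 * π)) ≤ 0 :=
      Real.log_nonpos (by positivity) (by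
        rw [div_le_one (by positivity)]; linarith [Real.pi_gt_three])
    have e2 : lMain q 3 ≤ qLog q T := by
      nlinarith [Real.pi_gt_three, Real.log_nonneg hq]
    have f := mul_le_mul_of_nonneg_left d hC
    nlinarith [b.2, (Nat.cast_nonneg (lZeroCount χ T) : (0 : ℝ) ≤ _)]

/-- For large `T` the main term wins, whatever the modulus. -/
theorem lMain_ge (q : ℕ) [NeZero q] {T : ℝ} (hT : 1024 ≤ T) :
    T / 2 / π * qLog q T ≤ lMain q T := by
  have hq : (1 : ℝ) ≤ q := Nat.one_le_cast.2 NeZero.one_le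
  have e := lMain_eq q (show 0 < T by linarith)
  have hlT : 69 / 10 ≤ Real.log T := by
    refine le_trans ?_ (Real.log_le_log (by norm_num) hT)
    rw [show (1024 : ℝ) = 2 ^ 10 by norm_num, Real.log_pow]
    push_cast
    linarith [Real.log_two_gt_d9]
  have hlog : qLog q T ≤ Real.log q + Real.log 2 + Real.log T := by
    rw [qLog, Real.log_mul (by positivity) (by positivity), add_assoc,
      ← Real.log_mul two_ne_zero (by linarith), abs_of_nonneg (by linarith)]
    exact add_le_add le_rfl (Real.log_le_log (by linarith) (by linarith))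
  have hpi : Real.log (2 * π) ≤ 2 := by
    rw [Real.log_le_iff_le_exp (by positivity), show (2 : ℝ) = 1 + 1 by norm_num, Real.exp_add]
    nlinarith [Real.exp_one_gt_d9, Real.pi_lt_d2]
  rw [Real.log_div (by linarith) (by positivity)] at e
  have h : T / 2 * qLog q T ≤ π * lMain q T := by
    rw [e]
    have h1 := mul_le_mul_of_nonneg_left hlog (show 0 ≤ T / 2 by linarith)
    have h2 := mul_le_mul_of_nonneg_left (show
      (Real.log q + Real.log 2 + Real.log T) / 2 ≤ Real.log q + (Real.log T - Real.log (2 * π)) - 1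
      by linarith [Real.log_nonneg hq, Real.log_two_lt_d9]) (show 0 ≤ T by linarith)
    linarith
  rw [div_mul_eq_mul_div, div_le_iff₀ Real.pi_pos]
  linarith

/-- **An absolute height below which every primitive L-function has a zero.** -/
theorem exists_absolute_zero : ∃ T₀ : ℝ, ∀ (q : ℕ) [NeZero q] (χ : DirichletCharacter ℂ q),
    χ.IsPrimitive → χ ≠ 1 →
      ∃ ρ : ℂ, LFunction χ ρ = 0 ∧ 0 < ρ.re ∧ ρ.re < 1 ∧ |ρ.im| ≤ T₀ := by
  obtain ⟨C, hC, h⟩ := exists_lZeroCount
  refine ⟨max 1024 (2 * π * (C + 1)), fun q _ χ hp hχ => ?_⟩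
  obtain ⟨T, hT⟩ : ∃ T, T = max 1024 (2 * π * (C + 1)) := ⟨_, rfl⟩
  have hT1 : 1024 ≤ T := hT ▸ le_max_left _ _
  have hT2 : 2 * π * (C + 1) ≤ T := hT ▸ le_max_right _ _
  rw [← hT]
  have h1 := abs_le.1 (h q χ hp hχ T (by linarith))
  have h2 := lMain_ge q hT1
  have h3 : C + 1 ≤ T / 2 / π := by
    rw [le_div_iff₀ Real.pi_pos]
    linarith
  have hl := (qLog_ge q T).1
  have h4 := mul_le_mul_of_nonneg_right h3 (zero_le_one.trans hl)
  have hN : (lZeroCount χ T : ℝ) ≠ 0 := by
    have : 0 < (lZeroCount χ T : ℝ) := by linarith [h1.1]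
    exact this.ne'
  rw [Nat.cast_ne_zero, lZeroCount_eq_sum hχ] at hN
  obtain ⟨ρ, hρ, -⟩ := Finset.exists_ne_zero_of_sum_ne_zero hN
  obtain ⟨h0, h5, h6, h7⟩ := (Set.Finite.mem_toFinset _).1 hρ
  exact ⟨ρ, h0, h5, h6, h7⟩

theorem tendsto_lZeroCount (hp : χ.IsPrimitive) (hχ : χ ≠ 1) :
    Tendsto (fun T : ℝ => (lZeroCount χ T : ℝ)) atTop atTop := by
  obtain ⟨C, hC, h⟩ := exists_lZeroCount
  refine tendsto_atTop_mono' atTop (f₁ := fun T : ℝ => T / (2 * π) - C) ?_
    (tendsto_atTop_add_const_right _ _ (tendsto_id.atTop_div_const (by positivity)))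
  filter_upwards [eventually_ge_atTop 1024, eventually_ge_atTop (2 * π * C)] with T hT hTC
  have h1 := abs_le.1 (h q χ hp hχ T (by linarith))
  have h2 := lMain_ge q hT
  have hl := (qLog_ge q T).1
  have h3 : C ≤ T / (2 * π) := by
    rw [le_div_iff₀ (by positivity)]
    linarith
  rw [show T / 2 / π = T / (2 * π) by ring] at h2
  nlinarith [h1.1]

/-- **`L (s, χ)` has infinitely many zeros in the strip.** -/
theorem infinite_lZeros (hp : χ.IsPrimitive) (hχ : χ ≠ 1) :
    {ρ : ℂ | LFunction χ ρ = 0 ∧ 0 < ρ.re ∧ ρ.re < 1}.Infinite := fun hfin => by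
  have hb : ∀ T, (lZeroCount χ T : ℝ) ≤
      (∑ ρ ∈ hfin.toFinset, analyticOrderNatAt (LFunction χ) ρ : ℕ) := fun T => by
    rw [lZeroCount_eq_sum hχ]
    refine Nat.cast_le.2 (Finset.sum_le_sum_of_subset fun ρ hρ => ?_)
    rw [Set.Finite.mem_toFinset] at hρ ⊢
    exact ⟨hρ.1, hρ.2.1, hρ.2.2.1⟩
  obtain ⟨T, hT⟩ := ((tendsto_lZeroCount hp hχ).eventually_gt_atTop _).exists
  exact absurd (hb T) (not_le.2 hT)

end FA.DirichletZeroCount

end
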