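import Fermat.Agent.Tau.SiegelBound
import Fermat.Agent.HardyZeros.Decay
import Fermat.Agent.Levinson.Factor
import Mathlib.NumberTheory.LSeries.DirichletContinuation
import Mathlib.NumberTheory.LSeries.Nonvanishing

/-!
# The completed L-function of a primitive character and its zeros

With `a = 0` or `1` by the parity of `χ`, `Λ (s, χ) = Γℝ (s + a) L (s, χ)` on `re s > 0`; there
`Λ (conj s, χ⁻¹) = conj Λ (s, χ)`, and by the functional equation all zeros of `Λ` lie in
`0 < re s < 1`.
-/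

set_option autoImplicit false

noncomputable section

namespace FA.DirichletZeroCount

open Complex Filter Topology Set MeasureTheory
open DirichletCharacter (LFunction completedLFunction gammaFactor rootNumber)
open scoped Real ComplexConjugate

variable {q : ℕ} [NeZero q] {χ : DirichletCharacter ℂ q}

/-- The shift of the Gamma factor: `0` for even characters and `1` for odd ones. -/
def gShift (χ : DirichletCharacter ℂ q) : ℝ := if χ (-1) = 1 then 0 else 1

omit [NeZero q] in
theorem gShift_mem (χ : DirichletCharacter ℂ q) : gShift χ ∈ Icc (0 : ℝ) 1 := by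
  rw [gShift]
  split_ifs <;> norm_num

omit [NeZero q] in
theorem gammaFactor_eq (χ : DirichletCharacter ℂ q) (s : ℂ) :
    gammaFactor χ s = Gammaℝ (s + gShift χ) := by
  rcases χ.even_or_odd with h | h
  · rw [h.gammaFactor_def, gShift, if_pos (show χ (-1) = 1 from h), ofReal_zero, add_zero]
  · have h' : ¬ χ (-1) = 1 := by
      rw [show χ (-1) = -1 from h]
      norm_num
    rw [h.gammaFactor_def, gShift, if_neg h', ofReal_one]

omit [NeZero q] in
theorem apply_inv (χ : DirichletCharacter ℂ q) (a : ZMod q) : χ⁻¹ a = conj (χ a) :=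
  (MulChar.star_apply' χ a).symm

omit [NeZero q] in
theorem gShift_inv (χ : DirichletCharacter ℂ q) : gShift χ⁻¹ = gShift χ := by
  rw [gShift, gShift, apply_inv]
  congr 1
  rw [eq_iff_iff]
  exact ⟨fun h => by simpa using congrArg conj h, fun h => by rw [h, map_one]⟩

omit [NeZero q] in
theorem inv_ne_one' (h : χ ≠ 1) : χ⁻¹ ≠ 1 := fun e => h (inv_eq_one.1 e)

omit [NeZero q] in
theorem isPrimitive_inv' (h : χ.IsPrimitive) : χ⁻¹.IsPrimitive :=
  (DirichletCharacter.conductor_inv χ).trans h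

omit [NeZero q] in
theorem gammaShift_ne_zero {s : ℂ} (hs : 0 < s.re) : Gammaℝ (s + gShift χ) ≠ 0 :=
  Gammaℝ_ne_zero_of_re_pos (by simp; linarith [(gShift_mem χ).1])

theorem completed_eq_mul (hχ : χ ≠ 1) {s : ℂ} (hs : 0 < s.re) :
    completedLFunction χ s = Gammaℝ (s + gShift χ) * LFunction χ s := by
  rw [DirichletCharacter.LFunction_eq_completed_div_gammaFactor χ s
    (Or.inr fun h => hχ (DirichletCharacter.level_one' χ h)), gammaFactor_eq,
    mul_div_cancel₀ _ (gammaShift_ne_zero hs)]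

/-- **`L (conj s, χ⁻¹) = conj L (s, χ)`** on the half plane. -/
theorem lfunction_conj_inv (hχ : χ ≠ 1) {s : ℂ} (hs : 0 < s.re) :
    LFunction χ⁻¹ (conj s) = conj (LFunction χ s) := by
  have hre : 0 < (conj s).re := by rwa [conj_re]
  rw [FA.Siegel.lfunction_eq hχ hs, FA.Siegel.lfunction_eq (inv_ne_one' hχ) hre, map_mul,
    FA.Siegel.tail, FA.Siegel.tail, ← integral_conj]
  congr 1
  refine MeasureTheory.setIntegral_congr_fun measurableSet_Ioi fun t ht => ?_
  have hS : conj (FA.Siegel.charSum χ t) = FA.Siegel.charSum χ⁻¹ t := by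
    rw [FA.Siegel.charSum, FA.Siegel.charSum, map_sum]
    exact Finset.sum_congr rfl fun k _ => (apply_inv χ _).symm
  have harg : (t : ℂ).arg ≠ π := by
    rw [arg_ofReal_of_nonneg (zero_le_one.trans (Set.mem_Ioi.1 ht).le)]
    exact Real.pi_ne_zero.symm
  show FA.Siegel.charSum χ⁻¹ t * (t : ℂ) ^ (-(conj s + 1)) =
    conj (FA.Siegel.charSum χ t * (t : ℂ) ^ (-(s + 1)))
  rw [map_mul, hS, show -(conj s + 1) = conj (-(s + 1)) by simp, cpow_conj _ _ harg, conj_ofReal]

theorem completed_conj_inv (hχ : χ ≠ 1) {s : ℂ} (hs : 0 < s.re) :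
    completedLFunction χ⁻¹ (conj s) = conj (completedLFunction χ s) := by
  rw [completed_eq_mul (inv_ne_one' hχ) (by rwa [conj_re]), completed_eq_mul hχ hs,
    lfunction_conj_inv hχ hs, map_mul, FA.HardyZeros.conj_Gammaℝ, gShift_inv, map_add, conj_ofReal]

/-- `Λ'/Λ`. -/
def lLog (χ : DirichletCharacter ℂ q) (s : ℂ) : ℂ :=
  deriv (completedLFunction χ) s / completedLFunction χ s

theorem completed_ne_zero_right (hχ : χ ≠ 1) {s : ℂ} (hs : 1 ≤ s.re) :
    completedLFunction χ s ≠ 0 := by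
  rw [completed_eq_mul hχ (by linarith)]
  exact mul_ne_zero (gammaShift_ne_zero (by linarith))
    (DirichletCharacter.LFunction_ne_zero_of_one_le_re χ (Or.inl hχ) hs)

theorem rootNumber_ne_zero' (hp : χ.IsPrimitive) (hχ : χ ≠ 1) : rootNumber χ ≠ 0 := fun h => by
  have h1 := hp.completedLFunction_one_sub (1 - 2)
  rw [sub_sub_cancel, h, mul_zero, zero_mul] at h1
  exact completed_ne_zero_right hχ (by norm_num) h1

theorem level_cast_ne_zero : (q : ℂ) ≠ 0 := Nat.cast_ne_zero.2 (NeZero.ne q)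

/-- **The zeros of `Λ` lie in the open strip.** -/
theorem completed_zero_strip (hp : χ.IsPrimitive) (hχ : χ ≠ 1) {s : ℂ}
    (h : completedLFunction χ s = 0) : 0 < s.re ∧ s.re < 1 := by
  refine ⟨?_, lt_of_not_ge fun h1 => completed_ne_zero_right hχ h1 h⟩
  by_contra hc
  have h1 := hp.completedLFunction_one_sub (1 - s)
  rw [sub_sub_cancel, h] at h1
  rcases mul_eq_zero.1 h1.symm with h2 | h2
  · rcases mul_eq_zero.1 h2 with h3 | h3
    · exact (Complex.cpow_ne_zero_iff.2 (Or.inl level_cast_ne_zero)) h3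
    · exact rootNumber_ne_zero' hp hχ h3
  · exact completed_ne_zero_right (inv_ne_one' hχ) (by simp; linarith) h2

/-- **The functional equation for `Λ'/Λ`.** -/
theorem lLog_one_sub (hp : χ.IsPrimitive) (hχ : χ ≠ 1) {s : ℂ}
    (hs : completedLFunction χ⁻¹ s ≠ 0) :
    lLog χ (1 - s) = -((Real.log q : ℂ) + lLog χ⁻¹ s) := by
  have hd1 := (DirichletCharacter.differentiable_completedLFunction hχ (1 - s)).hasDerivAt.comp s
    ((hasDerivAt_id' s).const_sub 1)
  have hd2 := ((((hasDerivAt_id' s).sub_const (1 / 2)).const_cpow (c := (q : ℂ))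
    (Or.inl level_cast_ne_zero)).mul_const (rootNumber χ)).mul
      (DirichletCharacter.differentiable_completedLFunction (inv_ne_one' hχ) s).hasDerivAt
  have he : (completedLFunction χ ∘ fun z : ℂ => 1 - z) =
      (fun z : ℂ => (q : ℂ) ^ (z - 1 / 2) * rootNumber χ) * completedLFunction χ⁻¹ :=
    funext fun z => hp.completedLFunction_one_sub z
  have e := (he ▸ hd1).unique hd2
  have hc : (q : ℂ) ^ (s - 1 / 2) ≠ 0 := Complex.cpow_ne_zero_iff.2 (Or.inl level_cast_ne_zero)
  have hr := rootNumber_ne_zero' hp hχ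
  rw [lLog, lLog, hp.completedLFunction_one_sub s]
  rw [← Complex.natCast_log] at e
  generalize (q : ℂ) ^ (s - 1 / 2) = P at e hc ⊢
  field_simp
  linear_combination -e

theorem lLog_conj_inv (hχ : χ ≠ 1) {s : ℂ} (hs : 0 < s.re) :
    lLog χ⁻¹ (conj s) = conj (lLog χ s) := by
  have hev : completedLFunction χ⁻¹ =ᶠ[𝓝 (conj s)] conj ∘ completedLFunction χ ∘ conj := by
    filter_upwards [(isOpen_lt continuous_const continuous_re).mem_nhds
      (show 0 < (conj s).re by rwa [conj_re])] with z hz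
    have h := completed_conj_inv hχ (show 0 < (conj z).re by rwa [conj_re])
    rw [Complex.conj_conj] at h
    exact h
  have h1 := congrFun (deriv_conj_conj (𝕜 := ℂ) (f := completedLFunction χ)) (conj s)
  rw [lLog, lLog, completed_conj_inv hχ hs, hev.deriv_eq, h1, map_div₀]
  simp

/-- **Reflection in the critical line.** -/
theorem lLog_reflect (hp : χ.IsPrimitive) (hχ : χ ≠ 1) {s : ℂ} (hs : 0 < s.re)
    (h0 : completedLFunction χ s ≠ 0) :
    lLog χ (1 - conj s) = -((Real.log q : ℂ) + conj (lLog χ s)) := by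
  rw [lLog_one_sub hp hχ ?_, lLog_conj_inv hχ hs]
  rw [completed_conj_inv hχ hs]
  exact (map_ne_zero conj).2 h0

/-- The zeros of `L (s, χ)` with `0 < re < 1` and `|im| ≤ T`. -/
def lZeros (χ : DirichletCharacter ℂ q) (T : ℝ) : Set ℂ :=
  {ρ | LFunction χ ρ = 0 ∧ 0 < ρ.re ∧ ρ.re < 1 ∧ |ρ.im| ≤ T}

theorem mem_lZeros_iff (hp : χ.IsPrimitive) (hχ : χ ≠ 1) {T : ℝ} {ρ : ℂ} :
    ρ ∈ lZeros χ T ↔ completedLFunction χ ρ = 0 ∧ |ρ.im| ≤ T := by
  constructor
  · rintro ⟨h, h0, h1, h2⟩
    exact ⟨by rw [completed_eq_mul hχ h0, h, mul_zero], h2⟩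
  · rintro ⟨h, h2⟩
    obtain ⟨h0, h1⟩ := completed_zero_strip hp hχ h
    rw [completed_eq_mul hχ h0, mul_eq_zero] at h
    exact ⟨h.resolve_left (gammaShift_ne_zero h0), h0, h1, h2⟩

theorem order_completed_ne_top (hχ : χ ≠ 1) (z : ℂ) :
    analyticOrderAt (completedLFunction χ) z ≠ ⊤ := fun h => by
  have h2 := (analyticOnNhd_univ_iff_differentiable.2
    (DirichletCharacter.differentiable_completedLFunction hχ)
      ).eqOn_zero_of_preconnected_of_eventuallyEq_zero isPreconnected_univ (mem_univ z)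
        (analyticOrderAt_eq_top.1 h) (mem_univ (2 : ℂ))
  exact completed_ne_zero_right hχ (by norm_num) h2

theorem analyticOrderNatAt_completed (hχ : χ ≠ 1) {s : ℂ} (hs : 0 < s.re) :
    analyticOrderNatAt (completedLFunction χ) s = analyticOrderNatAt (LFunction χ) s := by
  have hV : IsOpen {z : ℂ | 0 < z.re} := isOpen_lt continuous_const continuous_re
  have hu : AnalyticAt ℂ (fun z => Gammaℝ (z + gShift χ)) s :=
    DifferentiableOn.analyticAt (fun z hz => (DifferentiableAt.comp z
      ((differentiable_Gammaℝ_inv (z + gShift χ)).inv (inv_ne_zero (gammaShift_ne_zero hz))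
        |>.congr_of_eventuallyEq (Eventually.of_forall fun w => (inv_inv (Gammaℝ w)).symm))
      (differentiableAt_id.add_const _)).differentiableWithinAt) (hV.mem_nhds hs)
  have hL := (DirichletCharacter.differentiable_LFunction hχ).analyticAt s
  have he : completedLFunction χ =ᶠ[𝓝 s] (fun z => Gammaℝ (z + gShift χ)) * LFunction χ := by
    filter_upwards [hV.mem_nhds hs] with z hz
    exact completed_eq_mul hχ hz
  rw [analyticOrderNatAt, analyticOrderAt_congr he, analyticOrderAt_mul hu hL,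
    hu.analyticOrderAt_eq_zero.2 (gammaShift_ne_zero hs), zero_add, ← analyticOrderNatAt]

theorem one_le_order (hp : χ.IsPrimitive) (hχ : χ ≠ 1) {T : ℝ} {ρ : ℂ} (h : ρ ∈ lZeros χ T) :
    1 ≤ analyticOrderNatAt (LFunction χ) ρ := by
  rw [← analyticOrderNatAt_completed hχ h.2.1, Nat.one_le_iff_ne_zero, analyticOrderNatAt]
  intro h0
  rcases ENat.toNat_eq_zero.1 h0 with h0 | h0
  · exact ((DirichletCharacter.differentiable_completedLFunction hχ).analyticAt ρ
      ).analyticOrderAt_ne_zero.2 ((mem_lZeros_iff hp hχ).1 h).1 h0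
  · exact order_completed_ne_top hχ ρ h0

/-- Finitely many zeros up to each height. -/
theorem finite_lZeros (hχ : χ ≠ 1) (T : ℝ) : (lZeros χ T).Finite :=
  (FA.Levinson.finite_zeros_compact isOpen_univ
    ((isCompact_Icc.reProdIm isCompact_Icc : IsCompact (Icc (0 : ℝ) 1 ×ℂ Icc (-T) T)))
    (subset_univ _) (DirichletCharacter.differentiable_completedLFunction hχ).differentiableOn
    fun z _ => order_completed_ne_top hχ z).subset fun ρ ⟨h, h0, h1, h2⟩ =>
      ⟨mem_reProdIm.2 ⟨⟨h0.le, h1.le⟩, abs_le.1 h2⟩,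
        by rw [completed_eq_mul hχ h0, h, mul_zero]⟩

/-- `N (T, χ)`: the zeros in the strip with `|im| ≤ T`, with multiplicity. -/
def lZeroCount (χ : DirichletCharacter ℂ q) (T : ℝ) : ℕ :=
  ∑ᶠ ρ ∈ lZeros χ T, analyticOrderNatAt (LFunction χ) ρ

theorem lZeroCount_eq_sum (hχ : χ ≠ 1) (T : ℝ) :
    lZeroCount χ T = ∑ ρ ∈ (finite_lZeros hχ T).toFinset, analyticOrderNatAt (LFunction χ) ρ :=
  finsum_mem_eq_finite_toFinset_sum _ _

theorem lZeroCount_mono (hχ : χ ≠ 1) {S T : ℝ} (h : S ≤ T) :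
    lZeroCount χ S ≤ lZeroCount χ T := by
  rw [lZeroCount_eq_sum hχ, lZeroCount_eq_sum hχ]
  exact Finset.sum_le_sum_of_subset (Set.Finite.toFinset_subset_toFinset.2
    fun ρ ⟨a, b, c, d⟩ => ⟨a, b, c, d.trans h⟩)

end FA.DirichletZeroCount

end
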